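import Fermat.Agent.ProjectiveStationary.Boundary
import Fermat.Agent.FurstenbergKifer.Uniform

/-!
# Equidistribution on projective space

Every limit of the averaged laws of the walk is stationary, so on even functions the averages
converge, uniformly in the starting direction, to the mean of the boundary map.
-/

set_option autoImplicit false

noncomputable section

namespace FA.ProjectiveStationary

open MeasureTheory Filter Topology Module Set Metric
open FA.FurstenbergLyapunov FA.FurstenbergKifer FA.GuivarchRaugi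
open scoped RealInnerProductSpace BoundedContinuousFunction

variable {E : Type*} [NormedAddCommGroup E] [InnerProductSpace ℝ E] [FiniteDimensional ℝ E]
  [MeasurableSpace E] [BorelSpace E] [Nontrivial E]

variable (μ : Measure (E →L[ℝ] E)) [IsProbabilityMeasure μ]

/-- The averaging operator iterated is the mean over the products. -/
theorem stepOp_iterate_apply (hμ : ∀ᵐ A ∂μ, A ∈ unitDet E) (φ : Sph E →ᵇ ℝ) (n : ℕ) (v : Sph E) :
    (stepOp hμ)^[n] φ v =
      ∫ x, φ (act (randProd n x) v) ∂(Measure.infinitePi fun _ : ℕ => μ) := by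
  induction n generalizing v with
  | zero => simp [randProd, FA.Kingman.cocycleProd, act_one]
  | succ n ih =>
    rw [Function.iterate_succ_apply', stepOp_apply]
    simp only [ih]
    set π := Measure.infinitePi fun _ : ℕ => μ with hπ
    set g : (E →L[ℝ] E) × (ℕ → E →L[ℝ] E) → ℝ :=
      fun p => φ (act (randProd n p.2) (act p.1 v))
    have hgm : Measurable g := φ.continuous.measurable.comp
      (measurable_act_pair ((measurable_randProd n).comp measurable_snd)
        (measurable_act_pair measurable_fst measurable_const))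
    have hgi : Integrable g (μ.prod π) :=
      Integrable.of_bound hgm.aestronglyMeasurable ‖φ‖ (.of_forall fun _ => φ.norm_coe_le_norm _)
    rw [← integral_prod g hgi, hπ, ← map_split_infinitePi μ,
      integral_map ((measurable_pi_apply 0).prodMk measurable_shift).aemeasurable
        hgm.aestronglyMeasurable]
    refine integral_congr_ae ((ae_all_unitDet μ hμ).mono fun x hx => ?_)
    show φ (act (randProd n (shift x)) (act (x 0) v)) = φ (act (randProd (n + 1) x) v)
    rw [randProd_succ,
      act_mul (randProd_mem_unitDet (x := shift x) (fun i => hx (i + 1)) n) (hx 0)]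

/-- **Uniform equidistribution.** -/
theorem eventually_mean_near (hμ : ∀ᵐ A ∂μ, A ∈ unitDet E) (hsi : StronglyIrreducible μ.support)
    (hprox : Proximal μ.support) (ν : Measure (Sph E)) [IsProbabilityMeasure ν]
    (hν : stepLaw μ ν = ν) {φ : Sph E →ᵇ ℝ} (hφ : EvenTest φ) {ε : ℝ} (hε : 0 < ε) :
    ∀ᶠ n : ℕ in atTop, ∀ v : Sph E,
      |(∑ j ∈ Finset.range n, ∫ x, φ (act (randProd j x) v)
        ∂(Measure.infinitePi fun _ : ℕ => μ)) / n - ∫ w, φ w ∂ν| ≤ ε := by
  by_contra h
  rw [not_eventually] at h
  have h' : ∀ k : ℕ, ∃ n, k < n ∧ ∃ v : Sph E, ε < |(∑ j ∈ Finset.range n,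
      ∫ x, φ (act (randProd j x) v) ∂(Measure.infinitePi fun _ : ℕ => μ)) / n -
      ∫ w, φ w ∂ν| := fun k => by
    obtain ⟨n, hn, hn'⟩ := frequently_atTop.1 h (k + 1)
    push Not at hn'
    exact ⟨n, hn, hn'⟩
  choose N hN v hv using h'
  obtain ⟨ν', hν', t, -, htend⟩ := exists_stationary_limit (μ := μ) hμ
    (fun k => lt_of_le_of_lt k.zero_le (hN k)) (tendsto_atTop_mono (fun k => (hN k).le) tendsto_id)
    v
  have h0 := htend φ
  rw [stationary_integral_eq μ hμ hsi hprox (ν' : Measure (Sph E)) ν hν' hν hφ] at h0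
  simp only [integral_meanLaw hμ, stepOp_iterate_apply μ hμ] at h0
  obtain ⟨k, hk⟩ := ((Metric.tendsto_nhds.1 h0) ε hε).exists
  exact absurd hk (not_lt.2 (hv (t k)).le)

/-- **The exponent at the boundary.** -/
theorem integral_boundary_growth (hμ : ∀ᵐ A ∂μ, A ∈ unitDet E)
    (hsi : StronglyIrreducible μ.support) (hint : Integrable (fun A => Real.log ‖A‖) μ) {γ : ℝ}
    (hlim : ∀ᵐ x ∂(Measure.infinitePi fun _ : ℕ => μ),
      Tendsto (fun n : ℕ => Real.log ‖randProd n x‖ / n) atTop (𝓝 γ))
    {Z : (ℕ → E →L[ℝ] E) → Sph E}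
    (hZ : ∀ᵐ x ∂(Measure.infinitePi fun _ : ℕ => μ),
      ∀ (ν : Measure (Sph E)) (φ : Sph E →ᵇ ℝ), IsProbabilityMeasure ν → stepLaw μ ν = ν →
        EvenTest φ → Tendsto (fun n => dirMean ν φ (leftProd n x)) atTop (𝓝 (φ (Z x)))) :
    ∫ x, ∫ A, Real.log ‖A (Z x : E)‖ ∂μ ∂(Measure.infinitePi fun _ : ℕ => μ) = γ := by
  obtain ⟨ν, hν⟩ := exists_stationary μ hμ
  have hev : EvenTest (growthOne hμ hint) := fun v => by
    simp only [growthOne_apply, coe_neg_sphere, map_neg, norm_neg]
  have h := integral_eq_boundary μ hμ hZ (ν : Measure (Sph E)) hν hev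
  simp only [growthOne_apply] at h
  rw [h]
  exact stationary_formula μ hμ hsi hint hlim ν hν

end FA.ProjectiveStationary
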