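import Fermat.Agent.GuivarchRaugi.Direction
import Mathlib.Analysis.Normed.Group.BallSphere

/-!
# The boundary map

Along `Y n = x 0 * ... * x (n - 1)` the images of every stationary measure tend to one pair of
opposite directions `± boundary x`, a measurable function of the sequence; so for even test
functions every stationary measure is the law of the boundary map.
-/

set_option autoImplicit false

noncomputable section

namespace FA.ProjectiveStationary

open MeasureTheory Filter Topology Module Set Metric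
open FA.FurstenbergLyapunov FA.FurstenbergKifer FA.GuivarchRaugi
open scoped RealInnerProductSpace BoundedContinuousFunction

variable {E : Type*} [NormedAddCommGroup E] [InnerProductSpace ℝ E] [FiniteDimensional ℝ E]
  [MeasurableSpace E] [BorelSpace E] [Nontrivial E]

/-- A test function on lines. -/
def EvenTest (φ : Sph E →ᵇ ℝ) : Prop := ∀ v, φ (-v) = φ v

omit [MeasurableSpace E] [BorelSpace E] [Nontrivial E] in
theorem evenTest_pairTest (a b : E) : EvenTest (pairTest a b) := fun v => by
  simp [pairTest_apply, coe_neg_sphere]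

omit [FiniteDimensional ℝ E] [MeasurableSpace E] [BorelSpace E] [Nontrivial E] in
/-- An even function is constant on the directions in a line. -/
theorem eq_of_mem_line {φ : Sph E →ᵇ ℝ} (hφ : EvenTest φ) {z w : Sph E} {c : ℝ}
    (h : (w : E) = c • (z : E)) : φ w = φ z := by
  have hc : |c| = 1 := by
    have := congrArg norm h
    rw [norm_smul, norm_eq_of_mem_sphere, norm_eq_of_mem_sphere, mul_one, Real.norm_eq_abs] at this
    exact this.symm
  rcases abs_choice c with h' | h' <;> rw [h'] at hc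
  · exact congrArg φ (Subtype.ext (by rw [h, hc, one_smul]))
  · rw [show w = -z from Subtype.ext (by
      rw [h, show c = -1 by linarith, neg_one_smul, coe_neg_sphere]), hφ]

omit [FiniteDimensional ℝ E] [BorelSpace E] in
/-- At an operator of rank one the mean of an even function is its value at the image line. -/
theorem dirMean_line (ν : Measure (Sph E)) [IsProbabilityMeasure ν]
    (hnull : ∀ W : Submodule ℝ E, W ≠ ⊤ → mass ν W = 0) {φ : Sph E →ᵇ ℝ} (hφ : EvenTest φ)
    {K : E →L[ℝ] E} (hK : K ≠ 0) {z : Sph E} (hline : ∀ v, ∃ c : ℝ, K v = c • (z : E)) :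
    dirMean ν φ K = φ z := by
  have h : ∀ᵐ v : Sph E ∂ν, φ (act K v) = φ z := by
    filter_upwards [ae_apply_ne_zero ν hnull hK] with v hv
    obtain ⟨c, hc⟩ := hline (v : E)
    refine eq_of_mem_line hφ (c := ‖K (v : E)‖⁻¹ * c) ?_
    rw [act_eq, coe_dir hv, mul_smul, ← hc]
  rw [dirMean, integral_congr_ae h]
  simp

omit [MeasurableSpace E] [BorelSpace E] [Nontrivial E] in
/-- The first index with a positive diagonal entry. -/
theorem exists_first_pos {ι : Type*} [Fintype ι] [LinearOrder ι] {M : ι → ι → ℝ}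
    (h : ∃ i, 0 < M i i) : ∃ i, 0 < M i i ∧ ∀ j < i, ¬ 0 < M j j := by
  classical
  have hne : (Finset.univ.filter fun i => 0 < M i i).Nonempty :=
    h.imp fun i hi => Finset.mem_filter.2 ⟨Finset.mem_univ i, hi⟩
  refine ⟨_, (Finset.mem_filter.1 (Finset.min'_mem _ hne)).2, fun j hj hjp => ?_⟩
  exact not_lt.2 (Finset.min'_le _ j (Finset.mem_filter.2 ⟨Finset.mem_univ j, hjp⟩)) hj

open scoped Classical in
/-- The direction of the first nonzero column of a matrix `⟪b i, u⟫ * ⟪b j, u⟫`. -/
def columnDir (b : OrthonormalBasis (Fin (finrank ℝ E)) ℝ E)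
    (M : Fin (finrank ℝ E) → Fin (finrank ℝ E) → ℝ) : Sph E :=
  dir (∑ i, if 0 < M i i ∧ ∀ j < i, ¬ 0 < M j j then ∑ j, M i j • b j else 0)

omit [FiniteDimensional ℝ E] [MeasurableSpace E] [BorelSpace E] in
theorem columnDir_mem_line (b : OrthonormalBasis (Fin (finrank ℝ E)) ℝ E) {u : E} (hu : ‖u‖ = 1)
    {M : Fin (finrank ℝ E) → Fin (finrank ℝ E) → ℝ}
    (hM : ∀ i j, M i j = ⟪b i, u⟫ * ⟪b j, u⟫) :
    ∃ c : ℝ, (columnDir b M : E) = c • u := by
  classical
  have hex : ∃ i, 0 < M i i := by
    by_contra h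
    push Not at h
    have h0 : ∀ i, ⟪b i, u⟫ = 0 := fun i => by
      have := h i
      rw [hM] at this
      exact mul_self_eq_zero.1 (le_antisymm this (mul_self_nonneg _))
    have h1 : u = 0 := by
      rw [← b.sum_repr' u]
      simp [h0]
    simp [h1] at hu
  obtain ⟨i₀, hi₀, hmin⟩ := exists_first_pos hex
  have hsum : (∑ i, if 0 < M i i ∧ ∀ j < i, ¬ 0 < M j j then ∑ j, M i j • b j else 0) =
      ⟪b i₀, u⟫ • u := by
    rw [Finset.sum_eq_single i₀ (fun i _ hi => if_neg fun h => ?_)
      (fun h => absurd (Finset.mem_univ i₀) h), if_pos ⟨hi₀, hmin⟩]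
    · simp only [hM, mul_smul, ← Finset.smul_sum, b.sum_repr' u]
    · rcases lt_or_gt_of_ne hi with h' | h'
      · exact hmin i h' h.1
      · exact h.2 i₀ h' hi₀
  have hne : ⟪b i₀, u⟫ ≠ 0 := fun h => by simp [hM, h] at hi₀
  refine ⟨‖⟪b i₀, u⟫ • u‖⁻¹ * ⟪b i₀, u⟫, ?_⟩
  rw [columnDir, hsum, coe_dir (smul_ne_zero hne fun h => by simp [h] at hu), mul_smul]

theorem measurable_columnDir {α : Type*} [MeasurableSpace α]
    (b : OrthonormalBasis (Fin (finrank ℝ E)) ℝ E)
    {M : α → Fin (finrank ℝ E) → Fin (finrank ℝ E) → ℝ}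
    (hM : ∀ i j, Measurable fun a => M a i j) : Measurable fun a => columnDir b (M a) := by
  classical
  refine measurable_dir.comp (Finset.measurable_sum _ fun i _ => Measurable.ite ?_
    (Finset.measurable_sum _ fun j _ => (hM i j).smul_const _) measurable_const)
  simp only [ofPred_and, ofPred_forall]
  exact (measurableSet_lt measurable_const (hM i i)).inter (MeasurableSet.iInter fun j =>
    MeasurableSet.iInter fun _ => (measurableSet_lt measurable_const (hM j j)).compl)

/-- The limit directions, read off the limits of the quadratic means of a stationary measure. -/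
def boundaryFrom (ν : Measure (Sph E)) (x : ℕ → E →L[ℝ] E) : Sph E :=
  columnDir (stdOrthonormalBasis ℝ E) fun i j => limsup (fun n => dirMean ν
    (pairTest (stdOrthonormalBasis ℝ E i) (stdOrthonormalBasis ℝ E j)) (leftProd n x)) atTop

theorem measurable_boundaryFrom (ν : Measure (Sph E)) [SFinite ν] :
    Measurable (boundaryFrom ν) :=
  measurable_columnDir _ fun _ _ =>
    Measurable.limsup fun n => (measurable_dirMean ν _).comp (measurable_leftProd n)

variable (μ : Measure (E →L[ℝ] E)) [IsProbabilityMeasure μ]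

/-- **The boundary map.**  Almost surely the images of every stationary measure tend to one line. -/
theorem exists_boundary (hμ : ∀ᵐ A ∂μ, A ∈ unitDet E) (hsi : StronglyIrreducible μ.support)
    (hprox : Proximal μ.support) :
    ∃ Z : (ℕ → E →L[ℝ] E) → Sph E, Measurable Z ∧
      ∀ᵐ x ∂(Measure.infinitePi fun _ : ℕ => μ),
        (∀ (s : ℕ → ℕ) (K : E →L[ℝ] E), Tendsto s atTop atTop →
          Tendsto (fun j => ‖leftProd (s j) x‖⁻¹ • leftProd (s j) x) atTop (𝓝 K) →
          ∀ v, ∃ c : ℝ, K v = c • (Z x : E)) ∧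
        ∀ (ν : Measure (Sph E)) (φ : Sph E →ᵇ ℝ), IsProbabilityMeasure ν → stepLaw μ ν = ν →
          EvenTest φ →
          Tendsto (fun n => dirMean ν φ (leftProd n x)) atTop (𝓝 (φ (Z x))) := by
  obtain ⟨ρ, hρ⟩ := exists_stationary μ hμ
  have hall := ae_all_iff.2 fun q : Fin (finrank ℝ E) × Fin (finrank ℝ E) =>
    ae_tendsto_dirMean hμ hρ
      (pairTest (stdOrthonormalBasis ℝ E q.1) (stdOrthonormalBasis ℝ E q.2))
  have hnull : ∀ (ν : Measure (Sph E)), IsProbabilityMeasure ν → stepLaw μ ν = ν →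
      ∀ W : Submodule ℝ E, W ≠ ⊤ → mass ν W = 0 := fun ν _ hν W hW =>
    stationary_mass_eq_zero μ hμ hsi ν hν hW
  refine ⟨boundaryFrom (ρ : Measure (Sph E)), measurable_boundaryFrom _, ?_⟩
  filter_upwards [hall, ae_limit_isLine μ hμ hsi hprox hρ, ae_all_unitDet μ hμ]
    with x hc hline hx
  have hpos : ∀ n, 0 < ‖leftProd n x‖ := fun n =>
    one_pos.trans_le (one_le_norm (leftProd_mem_unitDet hx n))
  have key : ∀ (s : ℕ → ℕ) (K : E →L[ℝ] E), Tendsto s atTop atTop →
      Tendsto (fun j => ‖leftProd (s j) x‖⁻¹ • leftProd (s j) x) atTop (𝓝 K) →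
      K ≠ 0 ∧ ∀ v, ∃ c : ℝ, K v = c • (boundaryFrom (ρ : Measure (Sph E)) x : E) := by
    intro s K hs hK
    have hK0 : K ≠ 0 := fun h => by
      have h1 := hK.norm
      rw [h, norm_zero] at h1
      refine zero_ne_one (α := ℝ) (tendsto_nhds_unique h1 (tendsto_const_nhds.congr fun j => ?_))
      rw [norm_smul, norm_inv, norm_norm, inv_mul_cancel₀ (hpos _).ne']
    refine ⟨hK0, fun v => ?_⟩
    obtain ⟨u, hu, hKu⟩ := hline s K hs hK
    set z : Sph E := ⟨u, mem_sphere_zero_iff_norm.2 hu⟩
    have hM : ∀ i j, limsup (fun n => dirMean (ρ : Measure (Sph E))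
        (pairTest (stdOrthonormalBasis ℝ E i) (stdOrthonormalBasis ℝ E j)) (leftProd n x)) atTop =
        ⟪stdOrthonormalBasis ℝ E i, u⟫ * ⟪stdOrthonormalBasis ℝ E j, u⟫ := fun i j => by
      obtain ⟨l, hl⟩ := hc (i, j)
      have h1 := tendsto_dirMean (ρ : Measure (Sph E)) (hnull ρ inferInstance hρ)
        (pairTest (stdOrthonormalBasis ℝ E i) (stdOrthonormalBasis ℝ E j))
        (fun j => inv_pos.2 (hpos (s j))) hK hK0
      rw [dirMean_line (ρ : Measure (Sph E)) (hnull ρ inferInstance hρ) (evenTest_pairTest _ _)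
        hK0 (z := z) fun v => ⟨_, hKu v⟩] at h1
      rw [hl.limsup_eq]
      exact tendsto_nhds_unique (hl.comp hs) h1
    obtain ⟨c, hc'⟩ := columnDir_mem_line (stdOrthonormalBasis ℝ E) hu hM
    change (boundaryFrom (ρ : Measure (Sph E)) x : E) = c • u at hc'
    have hc0 : c ≠ 0 := fun h => by
      rw [h, zero_smul] at hc'
      exact sph_ne_zero _ hc'
    refine ⟨⟪u, K v⟫ * c⁻¹, ?_⟩
    rw [hc', smul_smul, inv_mul_cancel_right₀ hc0]
    exact hKu v
  refine ⟨fun s K hs hK => (key s K hs hK).2, fun ν φ hν hstat hφ => ?_⟩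
  refine tendsto_of_subseq_tendsto fun ns hns => ?_
  obtain ⟨K, -, ms, hms, hK⟩ := (isCompact_sphere (0 : E →L[ℝ] E) 1).tendsto_subseq
    (x := fun j => ‖leftProd (ns j) x‖⁻¹ • leftProd (ns j) x) fun j => by
      rw [mem_sphere_zero_iff_norm, norm_smul, norm_inv, norm_norm, inv_mul_cancel₀ (hpos _).ne']
  refine ⟨ms, ?_⟩
  obtain ⟨hK0, hl⟩ := key (fun j => ns (ms j)) K (hns.comp hms.tendsto_atTop) hK
  rw [← dirMean_line ν (hnull ν hν hstat) hφ hK0 hl]
  exact tendsto_dirMean ν (hnull ν hν hstat) φ (fun j => inv_pos.2 (hpos _)) hK hK0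

/-- **Every stationary measure is the law of the boundary map**, on even functions. -/
theorem integral_eq_boundary (hμ : ∀ᵐ A ∂μ, A ∈ unitDet E) {Z : (ℕ → E →L[ℝ] E) → Sph E}
    (hZ : ∀ᵐ x ∂(Measure.infinitePi fun _ : ℕ => μ),
      ∀ (ν : Measure (Sph E)) (φ : Sph E →ᵇ ℝ), IsProbabilityMeasure ν → stepLaw μ ν = ν →
        EvenTest φ → Tendsto (fun n => dirMean ν φ (leftProd n x)) atTop (𝓝 (φ (Z x))))
    (ν : Measure (Sph E)) [IsProbabilityMeasure ν] (hν : stepLaw μ ν = ν) {φ : Sph E →ᵇ ℝ}
    (hφ : EvenTest φ) :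
    ∫ x, φ (Z x) ∂(Measure.infinitePi fun _ : ℕ => μ) = ∫ v, φ v ∂ν := by
  set π := Measure.infinitePi fun _ : ℕ => μ
  have hconst : ∀ n, ∫ x, dirMean ν φ (leftProd n x) ∂π = ∫ v, φ v ∂ν := fun n => by
    have h1 : dirMean ν φ 1 = ∫ v, φ v ∂ν := by simp only [dirMean, act_one]
    rw [← h1, ← integral_dirMean_leftLaw hμ hν φ n one_mem_unitDet, leftLaw]
    simp only [one_mul]
    rw [integral_map (measurable_leftProd n).aemeasurable
      (measurable_dirMean ν φ).aestronglyMeasurable]
  have h := tendsto_integral_of_dominated_convergence (μ := π) (fun _ => ‖φ‖)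
    (F := fun n x => dirMean ν φ (leftProd n x)) (f := fun x => φ (Z x))
    (fun n => ((measurable_dirMean ν φ).comp (measurable_leftProd n)).aestronglyMeasurable)
    (integrable_const _) (fun n => .of_forall fun x => abs_dirMean_le ν φ _)
    (hZ.mono fun x hx => hx ν φ inferInstance hν hφ)
  simp only [hconst] at h
  exact (tendsto_nhds_unique tendsto_const_nhds h).symm

/-- **Uniqueness**: stationary measures agree on even functions. -/
theorem stationary_integral_eq (hμ : ∀ᵐ A ∂μ, A ∈ unitDet E)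
    (hsi : StronglyIrreducible μ.support) (hprox : Proximal μ.support)
    (ν ν' : Measure (Sph E)) [IsProbabilityMeasure ν] [IsProbabilityMeasure ν']
    (hν : stepLaw μ ν = ν) (hν' : stepLaw μ ν' = ν') {φ : Sph E →ᵇ ℝ} (hφ : EvenTest φ) :
    ∫ v, φ v ∂ν = ∫ v, φ v ∂ν' := by
  obtain ⟨Z, -, hZ⟩ := exists_boundary μ hμ hsi hprox
  have h := hZ.mono fun x hx => hx.2
  rw [← integral_eq_boundary μ hμ h ν hν hφ, ← integral_eq_boundary μ hμ h ν' hν' hφ]

/-- Symmetrised stationary measures agree. -/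
theorem stationary_symm_eq (hμ : ∀ᵐ A ∂μ, A ∈ unitDet E)
    (hsi : StronglyIrreducible μ.support) (hprox : Proximal μ.support)
    (ν ν' : Measure (Sph E)) [IsProbabilityMeasure ν] [IsProbabilityMeasure ν']
    (hν : stepLaw μ ν = ν) (hν' : stepLaw μ ν' = ν') :
    ν + ν.map (fun v => -v) = ν' + ν'.map (fun v => -v) := by
  have hneg : Measurable fun v : Sph E => -v := continuous_neg.measurable
  have : IsProbabilityMeasure (ν.map fun v => -v) :=
    Measure.isProbabilityMeasure_map hneg.aemeasurable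
  have : IsProbabilityMeasure (ν'.map fun v => -v) :=
    Measure.isProbabilityMeasure_map hneg.aemeasurable
  refine ext_of_forall_integral_eq_of_IsFiniteMeasure fun φ => ?_
  set ψ : Sph E →ᵇ ℝ := φ + φ.compContinuous ⟨fun v => -v, continuous_neg⟩
  have hψ : EvenTest ψ := fun v => by simp [ψ, add_comm]
  have key : ∀ m : Measure (Sph E), IsProbabilityMeasure m →
      ∫ v, φ v ∂(m + m.map fun v => -v) = ∫ v, ψ v ∂m := fun m _ => by
    have : IsProbabilityMeasure (m.map fun v => -v) :=
      Measure.isProbabilityMeasure_map hneg.aemeasurable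
    rw [integral_add_measure (φ.integrable m) (φ.integrable _),
      integral_map hneg.aemeasurable φ.continuous.aestronglyMeasurable]
    exact (integral_add (φ.integrable m)
      ((φ.compContinuous ⟨fun v => -v, continuous_neg⟩).integrable m)).symm
  rw [key ν inferInstance, key ν' inferInstance]
  exact stationary_integral_eq μ hμ hsi hprox ν ν' hν hν' hψ

end FA.ProjectiveStationary
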